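import Fermat.Agent.RED.Deuring.Basic

/-!
# RED/S18: the Kummer property (K) of a constant reduction datum
-/

set_option autoImplicit false

open AlgebraicCurve

namespace Fermat.Agent.RED

variable {K F k Fb : Type*} [Field K] [Field F] [Algebra K F] [Field k] [Field Fb] [Algebra k Fb]

/-- **(K)**: an element of the Gauss ring whose divisor is divisible by `m` and whose reduction is
a nonzero `m`-th power is an `m`-th power. -/
def KProp (R : RedData K F k Fb) (m : ℕ) : Prop :=
  ∀ (x : R.O) (γ : Fb), γ ≠ 0 → R.red x = γ ^ m →
    (∀ P : Place K F, (m : ℤ) ∣ P.ord (x : F)) → ∃ h : F, h ^ m = (x : F)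

end Fermat.Agent.RED
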