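import Fermat.Agent.RED.Desc.BMap
import Fermat.Agent.RED.Gauss.Compat
import Fermat.Agent.RED.Gauss.Bridge
import Fermat.Agent.RED.FF.LSpace
import Fermat.Agent.RED.S18.KProp
import Fermat.Agent.GAL.HeckeInputs

/-!
# RED/S18: [DESC]  `(K)` at level `N c` implies `(K)` at level `N`
-/

set_option autoImplicit false
set_option linter.unusedSectionVars false
noncomputable section
open Polynomial ModularCurve IntermediateField AlgebraicCurve

namespace Fermat.Agent.RED

open Fermat.Agent.S28 Fermat.Agent.RED.Gauss Fermat.Agent.S24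

section PlaceInfty

theorem order_inv84 {K : Type*} [Field K] (f : LaurentSeries K) : f⁻¹.order = -f.order := by
  rcases eq_or_ne f 0 with rfl | hf
  · simp
  have h1 : (f * f⁻¹).order = f.order + f⁻¹.order :=
    HahnSeries.order_mul hf (inv_ne_zero hf)
  rw [mul_inv_cancel₀ hf, HahnSeries.order_one] at h1
  omega

variable {K : Type*} [Field K] (F : IntermediateField K (LaurentSeries K))

/-- the valuation ring of the `q`-adic valuation restricted to a subfield of `K((q))`. -/
def orderSubring : ValuationSubring F where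
  carrier := {f | 0 ≤ (f : LaurentSeries K).order}
  mul_mem' := by
    intro f g hf hg
    by_cases hf0 : (f : LaurentSeries K) = 0
    · simp [hf0]
    by_cases hg0 : (g : LaurentSeries K) = 0
    · simp [hg0]
    show 0 ≤ ((f : LaurentSeries K) * (g : LaurentSeries K)).order
    rw [HahnSeries.order_mul hf0 hg0]
    exact add_nonneg hf hg
  one_mem' := by simp
  add_mem' := by
    intro f g hf hg
    show 0 ≤ ((f : LaurentSeries K) + (g : LaurentSeries K)).order
    by_cases h0 : (f : LaurentSeries K) + (g : LaurentSeries K) = 0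
    · rw [h0]; simp
    exact (le_min hf hg).trans (HahnSeries.min_order_le_order_add h0)
  zero_mem' := by simp
  neg_mem' := by
    intro f hf
    show 0 ≤ (-(f : LaurentSeries K)).order
    rw [HahnSeries.order_neg]; exact hf
  mem_or_inv_mem' := by
    intro f
    show 0 ≤ (f : LaurentSeries K).order ∨ 0 ≤ ((f : LaurentSeries K)⁻¹).order
    rw [order_inv84]
    omega

theorem mem_orderSubring {f : F} : f ∈ orderSubring F ↔ 0 ≤ (f : LaurentSeries K).order := Iff.rfl

/-- the place at infinity: `ord = q`-order. -/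
theorem exists_place_ord_eq_order {x₀ : F} (hx : IsSepParam K x₀) (t : F)
    (ht : (t : LaurentSeries K).order = 1) :
    ∃ v : Place K F, ∀ f : F, f ≠ 0 → v.ord f = (f : LaurentSeries K).order := by
  have ht0 : t ≠ 0 := by
    rintro rfl
    simp at ht
  obtain ⟨v, hv⟩ := hx.exists_place_eq' (orderSubring F) (fun a => by
      rw [mem_orderSubring]
      show 0 ≤ (algebraMap K (LaurentSeries K) a).order
      rw [algebraMap_laurentSeries_eq_single]
      by_cases ha : a = 0
      · simp [ha]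
      · rw [HahnSeries.order_single ha]) (fun htop => by
      have : t⁻¹ ∈ orderSubring F := htop ▸ ValuationSubring.mem_top _
      rw [mem_orderSubring, IntermediateField.coe_inv, order_inv84, ht] at this
      omega)
  refine ⟨v, Place.ord_eq_of_hom v (fun f => (f : LaurentSeries K).order) ?_ ?_ ⟨t, ht0, ht⟩⟩
  · intro f g hf hg
    exact HahnSeries.order_mul (fun h => hf (Subtype.ext h)) (fun h => hg (Subtype.ext h))
  · intro f _
    rw [hv]
    exact Iff.rfl

end PlaceInfty

section Desc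

set_option synthInstance.maxHeartbeats 400000

variable (A : ValuationSubring (AlgebraicClosure ℚ)) (N : ℕ) [NeZero N] {ℓ : ℕ} [Fact ℓ.Prime]

/-- divisibility of all orders is preserved by `q ↦ q^c`. -/
theorem dvd_ord_heckeBetaBar (c : ℕ) [NeZero c] {m : ℤ} (x : FN N)
    (hdiv : ∀ P : Place Kb (FN N), m ∣ P.ord x) (P' : Place Kb (FN (N * c))) :
    m ∣ P'.ord (heckeBetaBar Kb N c x) := by
  letI := algebraAlong (heckeBetaBar Kb N c)
  haveI := isScalarTower_along (heckeBetaBar Kb N c)
  haveI := isIntegral_along (heckeBetaBar Kb N c) (GAL.HeckeInputs.heckeBetaBarIntegral N c)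
  have h1 := P'.ord_restrict (F := FN N) x
  have h2 : algebraMap (FN N) (FN (N * c)) x = heckeBetaBar Kb N c x := rfl
  rw [← h2, h1]
  exact Dvd.dvd.mul_left (hdiv _) _

/-- the `q`-order of a function whose divisor is divisible by `m` is divisible by `m`. -/
theorem dvd_order_of_dvd_ord {m : ℤ} (x : FN N) (hx0 : x ≠ 0)
    (hdiv : ∀ P : Place Kb (FN N), m ∣ P.ord x) : m ∣ (x : LaurentSeries Kb).order := by
  obtain ⟨v, hv⟩ := exists_place_ord_eq_order (modularFunctionFieldBar N)
    (IsSepParam.of_charZero (GAL.HeckeInputs.isFiniteParam_jF N)) (jF N)⁻¹ (by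
      rw [IntermediateField.coe_inv, order_inv84, Desc.coe_jF, Desc.order_jqModC']; rfl)
  rw [← hv x hx0]
  exact hdiv v

/-- **[DESC]**: `(K)` at level `N c` implies `(K)` at level `N`. -/
theorem kProp_descent_of_card_lt (hA : A.LiesOverPrime ℓ) (hℓN : ¬ ℓ ∣ N) (c : ℕ) [NeZero c]
    (hℓNc : ¬ ℓ ∣ N * c) (hlt : Nat.card (XN (N * c)) < 2 * c * Nat.card (XN N))
    {m : ℕ} (hm0 : m ≠ 0) (HK : KProp (gaussData A (N * c) hA hℓNc) m) :
    KProp (gaussData A N hA hℓN) m := by
  intro x γ hγ hxγ hdiv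
  have hx0 : (x : FN N) ≠ 0 := by
    intro h0
    have : x = 0 := Subtype.ext h0
    rw [this, map_zero] at hxγ
    exact pow_ne_zero m hγ hxγ.symm
  have hC := compat_qExpand (IsLocalRing.residue A) c
  have hβO : heckeBetaBar Kb N c (x : FN N) ∈ (gaussData A (N * c) hA hℓNc).O := hC.mem_bigO x.2
  have hγ'mem : qExpand (IsLocalRing.ResidueField A) c
      (γ : LaurentSeries (IsLocalRing.ResidueField A)) ∈
        modularFunctionFieldFullC (IsLocalRing.ResidueField A) (N * c) :=
    full_degeneracyC_map_le (IsLocalRing.ResidueField A) N c ⟨γ, γ.2, rfl⟩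
  have hγ'0 : (⟨_, hγ'mem⟩ : modularFunctionFieldFullC (IsLocalRing.ResidueField A) (N * c)) ≠ 0 := by
    intro h0
    have h1 : qExpand (IsLocalRing.ResidueField A) c
      (γ : LaurentSeries (IsLocalRing.ResidueField A)) = 0 := congrArg Subtype.val h0
    exact hγ (Subtype.ext ((map_eq_zero _).mp h1))
  have hred : (gaussData A (N * c) hA hℓNc).red ⟨heckeBetaBar Kb N c (x : FN N), hβO⟩ =
      (⟨_, hγ'mem⟩ : modularFunctionFieldFullC (IsLocalRing.ResidueField A) (N * c)) ^ m := by
    apply Subtype.ext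
    have h1 := hC.gRed_map (gaussNormBar A N hA hℓN) (gaussNormBar A (N * c) hA hℓNc) x
      (heckeBetaBar Kb N c (x : FN N)).2
    have h2 : gRed (gaussNormBar A N hA hℓN) x =
        (γ : LaurentSeries (IsLocalRing.ResidueField A)) ^ m := congrArg Subtype.val hxγ
    rw [h2, map_pow] at h1
    exact h1
  obtain ⟨g', hg'⟩ := HK ⟨heckeBetaBar Kb N c (x : FN N), hβO⟩ _ hγ'0 hred
    (dvd_ord_heckeBetaBar N c (x : FN N) hdiv)
  obtain ⟨g, hg, -⟩ := Desc.exists_root_of_beta_eq_pow N c hlt hm0 (x : FN N)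
    (dvd_order_of_dvd_ord N (x : FN N) hx0 hdiv) g' hg'
  exact ⟨g, hg⟩

/-- the index inequality for `c = p²`. -/
theorem card_lt_prime_sq {p : ℕ} (hp : p.Prime) :
    haveI : NeZero (p * p) := ⟨Nat.mul_ne_zero hp.ne_zero hp.ne_zero⟩
    Nat.card (XN (N * (p * p))) < 2 * (p * p) * Nat.card (XN N) := by
  haveI : NeZero p := ⟨hp.ne_zero⟩
  by_cases h : p ∣ N
  · have hpos' : 0 < Nat.card (XN N) := Nat.card_pos
    rw [Desc.card_XN_eq, Desc.card_XN_eq] at *
    rw [← mul_assoc, Fermat.Agent.S20.dedekindPsi_mul_prime_of_dvd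
        (Nat.mul_ne_zero (NeZero.ne N) hp.ne_zero) hp (Dvd.intro_left N rfl),
      Fermat.Agent.S20.dedekindPsi_mul_prime_of_dvd (NeZero.ne N) hp h]
    have := Nat.mul_pos (Nat.mul_pos hp.pos hp.pos) hpos'
    nlinarith
  · exact Desc.card_lt_prime_sq_of_not_dvd N hp h

/-- **[DESC]** for `c = p²`. -/
theorem kProp_descent (hA : A.LiesOverPrime ℓ) (hℓN : ¬ ℓ ∣ N) {p : ℕ} (hp : p.Prime)
    [NeZero (p * p)] (hℓNc : ¬ ℓ ∣ N * (p * p)) {m : ℕ} (hm0 : m ≠ 0)
    (HK : KProp (gaussData A (N * (p * p)) hA hℓNc) m) : KProp (gaussData A N hA hℓN) m :=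
  kProp_descent_of_card_lt A N hA hℓN (p * p) hℓNc (card_lt_prime_sq N hp) hm0 HK

end Desc

end Fermat.Agent.RED
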