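import Fermat.Agent.RED.RB.Main
import Fermat.Agent.RR.Modular

/-!
# RED/S18: [GEN] from the relative Riemann–Hurwitz inequality in characteristic `ℓ` alone
-/

set_option autoImplicit false
set_option linter.style.haveILetI false
noncomputable section
open AlgebraicCurve IntermediateField ModularCurve
open Fermat.Agent.S24 Fermat.Agent.RED.Cusp Fermat.Agent.RED.RB

namespace Fermat.Agent.RED

variable (N : ℕ) [NeZero N] (k : Type*) [Field k] [IsAlgClosed k] (ℓ : ℕ) [Fact ℓ.Prime]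
  [CharP k ℓ]

/-- [G0] without Riemann–Hurwitz: `12 g = 12 + ψ(N) - 6 ε(N)`. -/
theorem twelve_gR_FN (h49 : 4 ∣ N ∨ 9 ∣ N) :
    12 * gR Kb (FN N) = 12 + (dedekindPsi N : ℤ) - 6 * (cuspCount N : ℤ) := by
  have h := RR.gR_FN N
  rw [genusFormula, nuTwo_eq_zero h49, nuThree_eq_zero h49] at h
  have h' : (12 * gR Kb (FN N) : ℚ) = 12 + (dedekindPsi N : ℚ) - 6 * (cuspCount N : ℚ) := by
    rw [h]; push_cast; ring
  exact_mod_cast h'

/-- [GEN] from (RH-rel) in characteristic `ℓ`. -/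
theorem gR_le_of_rel (hℓN : ¬ ℓ ∣ N) (h49 : 4 ∣ N ∨ 9 ∣ N)
    (hrel4 : ∀ h : 4 ∣ N, letI := algFb k h; RHRel k (Fb k 4) (Fb k N) (jb k 4))
    (hrel9 : ∀ h : 9 ∣ N, letI := algFb k h; RHRel k (Fb k 9) (Fb k N) (jb k 9)) :
    gR Kb (FN N) ≤ gR k (Fb k N) := by
  have h0 := twelve_gR_FN N h49
  have hb : 12 + (dedekindPsi N : ℤ) - 6 * (cuspCount N : ℤ) ≤ 12 * gR k (Fb k N) := by
    rcases h49 with h | h
    · exact genb_of_rel k ℓ h hℓN (by rw [cuspCount_four, dedekindPsi_four]; norm_num) (hrel4 h)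
    · exact genb_of_rel k ℓ h hℓN (by rw [cuspCount_nine, dedekindPsi_nine]; norm_num) (hrel9 h)
  linarith

end Fermat.Agent.RED
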