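import Fermat.Agent.RED.Gauss.Datum
import Fermat.Agent.RED.FF.LSpace
import Fermat.Agent.RED.S18.KProp
import Fermat.Prelude.Def_ModularCurve_ReductionModL

/-!
# RED/S18: [WRAP]  the frozen statement S18 follows from the Kummer property (K) of the Gauss datum
-/

set_option autoImplicit false
set_option linter.unusedSectionVars false
noncomputable section
open Polynomial ModularCurve IntermediateField AlgebraicCurve

namespace Fermat.Agent.RED

open Fermat.Agent.S28 Fermat.Agent.RED.Gauss Fermat.Agent.S24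

section Wrap

variable {L : Type*} [Field L] [Algebra ℚ L] {A : ValuationSubring L}
variable {k : Type*} [Field k] (π : A →+* k)
variable {N : ℕ} [NeZero N] {ℓ : ℕ} [Fact ℓ.Prime] {n : ℕ} {u : LaurentSeries ℤ}
variable [CharP k ℓ] (hπ : Function.Surjective π) (hn : 0 < n) (h : IsCoreExt N ℓ n u)

/-- (P1) for one integral `q`-series, in `dv` form. -/
theorem mapDomain_dv_integral
    {x₀ : laurentBaseChange L (modularFunctionFieldFull N)} (hx : IsSepParam L x₀)
    {y₀ : modularFunctionFieldFullC k N} (hy : IsSepParam k y₀)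
    {r : Place L (laurentBaseChange L (modularFunctionFieldFull N)) →
      Place k (modularFunctionFieldFullC k N)} (hr : IsPlaceReductionAlong A π N r)
    (a : LaurentSeries A) (ha : iota A a ∈ laurentBaseChange L (modularFunctionFieldFull N))
    (hak : pi π a ∈ modularFunctionFieldFullC k N) (ha0 : pi π a ≠ 0) :
    Finsupp.mapDomain r (dv L (⟨iota A a, ha⟩ : laurentBaseChange L (modularFunctionFieldFull N)))
      = dv k (⟨pi π a, hak⟩ : modularFunctionFieldFullC k N) := by
  ext Q
  rw [hy.dv_apply]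
  exact hr.2 a ha hak ha0 _ (fun P => hx.dv_apply _ P) Q

set_option maxHeartbeats 1600000 in
/-- **[WRAP]**: torsion injectivity of the frozen reduction map from the Kummer property (K). -/
theorem eq_zero_of_kProp [IsAlgClosed k]
    {x₀ : laurentBaseChange L (modularFunctionFieldFull N)} (hx : IsSepParam L x₀)
    {y₀ : modularFunctionFieldFullC k N} (hy : IsSepParam k y₀)
    (hin : ReductionInputsAlong A π N) {m : ℕ} (hm0 : m ≠ 0)
    (HK : KProp (gaussRedData π hπ hn h) m)
    (z : Pic0 L (laurentBaseChange L (modularFunctionFieldFull N)))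
    (hmz : m • z = 0) (hz : reductionAlong A π N z = 0) : z = 0 := by
  obtain ⟨D, rfl⟩ := Pic0.mk_surjective z
  have hr : IsPlaceReductionAlong A π N hin.choose := hin.choose_spec.1
  set r := hin.choose with hr_def
  -- `m D` is principal
  have h1 : Divisor.IsPrincipal (m • (D : Divisor L
      (laurentBaseChange L (modularFunctionFieldFull N)))) := by
    have h0 : Pic0.mk (m • D) = 0 := hmz
    rw [Pic0.mk, QuotientAddGroup.eq_zero_iff] at h0
    exact h0
  obtain ⟨f, hf0, hf⟩ := h1
  -- `r_* D` is principal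
  rw [reductionAlong_mk hin] at hz
  have h2 : Divisor.IsPrincipal (Finsupp.mapDomain r (D : Divisor L
      (laurentBaseChange L (modularFunctionFieldFull N)))) := by
    rw [Pic0.mk, QuotientAddGroup.eq_zero_iff] at hz
    exact hz
  obtain ⟨γ, hγ0, hγ⟩ := h2
  -- normal form of `f`
  obtain ⟨c, p, p', hc, hp, hp', hrel⟩ := exists_normalForm π hπ hn h (f : LaurentSeries L) f.2
    (fun h0 => hf0 (Subtype.ext h0))
  have H := coreData π hπ hn h (L := L) (A := A)
  set b := evA (jqModC A) p with hb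
  set a := comb (jqModC A) (fun i => castLS A u ^ (i : ℕ)) p' with ha
  have hb0 : pi π b ≠ 0 := H.pi_evA_ne_zero hp
  have ha0 : pi π a ≠ 0 := H.pi_comb_ne_zero hp'
  set aF : laurentBaseChange L (modularFunctionFieldFull N) := ⟨iota A a, iota_comb_mem h p'⟩
    with haF
  set bF : laurentBaseChange L (modularFunctionFieldFull N) := ⟨iota A b, iota_evA_mem p⟩
    with hbF
  set ak : modularFunctionFieldFullC k N := ⟨pi π a, pi_comb_mem_fullC π h p'⟩ with hak
  set bk : modularFunctionFieldFullC k N := ⟨pi π b, pi_evA_mem_fullC π p⟩ with hbk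
  have haF0 : aF ≠ 0 := fun h0 => iota_ne_zero_of_pi_ne_zero π ha0 (congrArg Subtype.val h0)
  have hbF0 : bF ≠ 0 := fun h0 => iota_ne_zero_of_pi_ne_zero π hb0 (congrArg Subtype.val h0)
  have hak0 : ak ≠ 0 := fun h0 => ha0 (congrArg Subtype.val h0)
  have hbk0 : bk ≠ 0 := fun h0 => hb0 (congrArg Subtype.val h0)
  have hcF : algebraMap L (laurentBaseChange L (modularFunctionFieldFull N)) c ≠ 0 := by
    rw [Ne, map_eq_zero]; exact hc
  have hfab : f * bF = algebraMap L _ c * aF := Subtype.ext hrel
  -- the Gauss unit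
  have hxrel : ((aF / bF : laurentBaseChange L (modularFunctionFieldFull N)) : LaurentSeries L) *
      iota A b = iota A a := by
    have : aF / bF * bF = aF := div_mul_cancel₀ _ hbF0
    exact congrArg Subtype.val this
  have hxO : aF / bF ∈ (gaussRedData π hπ hn h).O := ⟨a, b, hb0, hxrel⟩
  have hxred : (gaussRedData π hπ hn h).red ⟨aF / bF, hxO⟩ = ak / bk := by
    apply Subtype.ext
    exact (coe_gaussRedData_red π hπ hn h ⟨aF / bF, hxO⟩).trans
      (gRed_eq (gaussNorm π hπ hn h) ⟨aF / bF, hxO⟩ hb0 hxrel)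
  have hfx : f = algebraMap L _ c * (aF / bF) := by
    rw [mul_div_assoc', ← hfab, mul_div_cancel_right₀ _ hbF0]
  have hordx : ∀ P : Place L (laurentBaseChange L (modularFunctionFieldFull N)),
      P.ord (aF / bF) = m * (D : Divisor L _) P := by
    intro P
    have := hf P
    rw [hfx, P.ord_mul hcF (div_ne_zero haF0 hbF0), Place.ord_algebraMap, zero_add,
      Finsupp.smul_apply, nsmul_eq_mul] at this
    exact this.symm
  -- divisor of the reduction
  have hdv : dv L (aF / bF) = m • (D : Divisor L _) := by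
    ext P
    rw [hx.dv_apply, hordx, Finsupp.smul_apply, nsmul_eq_mul]
  have hdv2 : dv k (ak / bk) = m • dv k γ := by
    have e1 := mapDomain_dv_integral π hx hy hr a (iota_comb_mem h p') (pi_comb_mem_fullC π h p') ha0
    have e2 := mapDomain_dv_integral π hx hy hr b (iota_evA_mem p) (pi_evA_mem_fullC π p) hb0
    have e3 : dv L (aF / bF) = dv L aF - dv L bF := by
      rw [div_eq_mul_inv, hx.dv_mul haF0 (inv_ne_zero hbF0), hx.dv_inv, sub_eq_add_neg]
    have e4 : dv k (ak / bk) = dv k ak - dv k bk := by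
      rw [div_eq_mul_inv, hy.dv_mul hak0 (inv_ne_zero hbk0), hy.dv_inv, sub_eq_add_neg]
    have e5 : dv k γ = Finsupp.mapDomain r (D : Divisor L _) := by
      ext Q
      rw [hy.dv_apply, hγ]
    rw [e4, ← e1, ← e2, ← Finsupp.mapDomain_sub, ← e3, hdv, e5]
    exact (Finsupp.mapDomain.addMonoidHom r).map_nsmul _ _
  -- `red x = const * γ ^ m`
  have hconst : ak / bk / γ ^ m ∈ Set.range (algebraMap k (modularFunctionFieldFullC k N)) := by
    apply hy.mem_range_of_forall_ord_nonneg
    intro Q
    have e1 : Q.ord (ak / bk) = m * Q.ord γ := by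
      have := congrArg (fun E => E Q) hdv2
      rw [Finsupp.smul_apply, hy.dv_apply, hy.dv_apply, nsmul_eq_mul] at this
      exact this
    rw [div_eq_mul_inv, Q.ord_mul (div_ne_zero hak0 hbk0) (inv_ne_zero (pow_ne_zero _ hγ0)),
      Q.ord_inv, e1, ← zpow_natCast, Q.ord_zpow, add_neg_cancel]
  obtain ⟨e, he⟩ := hconst
  obtain ⟨e', he'⟩ := IsAlgClosed.exists_pow_nat_eq e (Nat.pos_of_ne_zero hm0)
  have he0 : e ≠ 0 := by
    rintro rfl
    rw [map_zero] at he
    exact (div_ne_zero (div_ne_zero hak0 hbk0) (pow_ne_zero _ hγ0)) he.symm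
  have he'0 : e' ≠ 0 := by
    rintro rfl
    rw [zero_pow hm0] at he'
    exact he0 he'.symm
  have hγ' : algebraMap k (modularFunctionFieldFullC k N) e' * γ ≠ 0 :=
    mul_ne_zero (by rw [Ne, map_eq_zero]; exact he'0) hγ0
  have hred' : (gaussRedData π hπ hn h).red ⟨aF / bF, hxO⟩ =
      (algebraMap k (modularFunctionFieldFullC k N) e' * γ) ^ m := by
    rw [hxred, mul_pow, ← map_pow, he', he, div_mul_cancel₀ _ (pow_ne_zero _ hγ0)]
  obtain ⟨g, hg⟩ := HK ⟨aF / bF, hxO⟩ _ hγ' hred' (fun P => ⟨_, hordx P⟩)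
  have hg' : g ^ m = aF / bF := hg
  have hg0 : g ≠ 0 := by
    rintro rfl
    rw [zero_pow hm0] at hg'
    exact (div_ne_zero haF0 hbF0) hg'.symm
  -- conclusion
  rw [Pic0.mk, QuotientAddGroup.eq_zero_iff]
  refine ⟨g, hg0, fun P => ?_⟩
  have e1 := hordx P
  rw [← hg', ← zpow_natCast, P.ord_zpow] at e1
  have hm' : (m : ℤ) ≠ 0 := by exact_mod_cast hm0
  exact (mul_left_cancel₀ hm' e1).symm

end Wrap

end Fermat.Agent.RED
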