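import Fermat.Agent.RED.FF.Riemann

/-!
# RED/S18: non-special reduced divisors of degree `g`, local parameters with one pole
(any characteristic; only Riemann's theorem is used)
-/

set_option autoImplicit false

open AlgebraicCurve IntermediateField
open Fermat.Agent.S24

namespace Fermat.Agent.RED

noncomputable section

variable {K F : Type*} [Field K] [Field F] [Algebra K F] {x : F}

/-- the reduced divisor attached to a finite set of places -/
def redDiv (S : Finset (Place K F)) : Divisor K F := ∑ Q ∈ S, Finsupp.single Q (1 : ℤ)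

open Classical in
theorem redDiv_apply (S : Finset (Place K F)) (Q : Place K F) :
    redDiv S Q = if Q ∈ S then 1 else 0 := by
  rw [redDiv, Finsupp.finsetSum_apply]
  simp only [Finsupp.single_apply]
  rw [Finset.sum_ite_eq' S Q]

namespace IsSepParam

variable [IsAlgClosed K]

theorem degree_redDiv (hx : IsSepParam K x) (S : Finset (Place K F)) :
    Divisor.degree (redDiv S) = S.card := by
  rw [redDiv, map_sum]
  simp [hx.degree_single]

/-- a place in the fibre of `x` over `c` -/
theorem exists_place_fibre (hx : IsSepParam K x) (c : K) :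
    ∃ v : Place K F, 0 < v.ord (x - algebraMap K F c) := by
  by_contra hcon
  push Not at hcon
  have h1 := hx.sum_fibre c
  have h2 : (hx.finite_fibre c).toFinset = ∅ := by
    ext v
    simp only [Set.Finite.mem_toFinset, Set.mem_ofPred_eq, Finset.notMem_empty, iff_false, not_lt]
    exact hcon v
  rw [h2, Finset.sum_empty] at h1
  haveI := hx.finite
  have h3 : 0 < Module.finrank K⟮x⟯ F := Module.finrank_pos
  omega

theorem infinite_place84 (hx : IsSepParam K x) : Infinite (Place K F) := by
  choose v hv using hx.exists_place_fibre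
  haveI : Infinite K := IsAlgClosed.instInfinite
  refine Infinite.of_injective v ?_
  intro a b hab
  by_contra hne
  have h1 := hv a
  have h2 := hv b
  rw [← hab] at h2
  have h3 : algebraMap K F (a - b) = (x - algebraMap K F b) - (x - algebraMap K F a) := by
    rw [map_sub]; ring
  have hab0 : a - b ≠ 0 := sub_ne_zero.mpr hne
  have h4 : (v a).ord (algebraMap K F (a - b)) = 0 := Place.ord_algebraMap _ _
  have hx1 : x - algebraMap K F a ≠ 0 := by
    intro h0; rw [h0, Place.ord_zero] at h1; omega
  have hx2 : x - algebraMap K F b ≠ 0 := by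
    intro h0; rw [h0, Place.ord_zero] at h2; omega
  have h5 : algebraMap K F (a - b) ≠ 0 := (map_ne_zero _).mpr hab0
  rw [h3, sub_eq_add_neg] at h4 h5
  have h6 := Place.ord_add_ge (v a) hx2 (neg_ne_zero.mpr hx1) h5
  rw [Place.ord_neg] at h6
  have := le_min h2.le h1.le
  have h7 : 1 ≤ min ((v a).ord (x - algebraMap K F b)) ((v a).ord (x - algebraMap K F a)) :=
    le_min h2 h1
  omega

/-- removing points from a non-special reduced divisor until `ℓ = 1`. -/
theorem exists_nonspecial_subset (hx : IsSepParam K x) (n : ℕ) :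
    ∀ S : Finset (Place K F), S.card = n →
      (ell (redDiv S) : ℤ) = S.card + 1 - gR K F →
      ∃ S' ⊆ S, (S'.card : ℤ) = gR K F ∧ ell (redDiv S') = 1 := by
  classical
  induction n with
  | zero =>
    intro S hS hl
    have hS0 : S = ∅ := Finset.card_eq_zero.mp hS
    subst hS0
    have h1 : redDiv (∅ : Finset (Place K F)) = 0 := by simp [redDiv]
    rw [h1, hx.ell_zero] at hl
    refine ⟨∅, subset_rfl, ?_, by rw [h1, hx.ell_zero]⟩
    simp only [Finset.card_empty] at hl ⊢
    push_cast at hl ⊢
    linarith
  | succ n ih =>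
    intro S hS hl
    by_cases h1 : ell (redDiv S) = 1
    · refine ⟨S, subset_rfl, ?_, h1⟩
      rw [h1] at hl
      push_cast at hl
      linarith
    -- there is a function in `L(S)` with a pole
    have h0le : (0 : Divisor K F) ≤ redDiv S := fun Q => by
      rw [redDiv_apply]; split_ifs <;> simp
    have hmono := hx.ell_mono h0le
    rw [hx.ell_zero] at hmono
    have h2 : 1 < ell (redDiv S) := lt_of_le_of_ne hmono (Ne.symm h1)
    haveI := hx.finite_L (redDiv S)
    have hlt : riemannRochSpace (0 : Divisor K F) < riemannRochSpace (redDiv S) := by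
      refine lt_of_le_of_ne (L_mono h0le) fun heq => ?_
      have : ell (0 : Divisor K F) = ell (redDiv S) := by unfold ell; rw [heq]
      rw [hx.ell_zero] at this
      omega
    obtain ⟨f, hfS, hf0⟩ := SetLike.exists_of_lt hlt
    have hfne : f ≠ 0 := fun h => hf0 (h ▸ zero_mem _)
    rw [mem_L_iff_of_ne_zero hfne] at hfS hf0
    push Not at hf0
    obtain ⟨Q, hQ⟩ := hf0
    rw [Finsupp.zero_apply, add_zero] at hQ
    have hQS : Q ∈ S := by
      by_contra hQS
      have := hfS Q
      rw [redDiv_apply, if_neg hQS] at this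
      omega
    have hle : redDiv (S.erase Q) ≤ redDiv S := fun P => by
      rw [redDiv_apply, redDiv_apply]
      by_cases hP : P ∈ S.erase Q
      · rw [if_pos hP, if_pos (Finset.mem_of_mem_erase hP)]
      · rw [if_neg hP]; split_ifs <;> simp
    have hlt2 : riemannRochSpace (redDiv (S.erase Q)) < riemannRochSpace (redDiv S) := by
      refine lt_of_le_of_ne (L_mono hle) fun heq => ?_
      have hmem : f ∈ riemannRochSpace (redDiv (S.erase Q)) := by
        rw [heq, mem_L_iff_of_ne_zero hfne]; exact hfS
      rw [mem_L_iff_of_ne_zero hfne] at hmem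
      have := hmem Q
      rw [redDiv_apply, if_neg (Finset.notMem_erase Q S)] at this
      omega
    have hfr := Submodule.finrank_lt_finrank_of_lt hlt2
    have hcard : (S.erase Q).card = n := by
      rw [Finset.card_erase_of_mem hQS, hS]; rfl
    have hR := hx.riemann_inequality (redDiv (S.erase Q))
    rw [hx.degree_redDiv, hcard] at hR
    have hl' : (ell (redDiv (S.erase Q)) : ℤ) = (S.erase Q).card + 1 - gR K F := by
      rw [hcard]
      rw [hS] at hl
      have : (ell (redDiv (S.erase Q)) : ℤ) < ell (redDiv S) := by exact_mod_cast hfr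
      push_cast at hl
      omega
    obtain ⟨S', hS', hc, he⟩ := ih (S.erase Q) hcard hl'
    exact ⟨S', hS'.trans (Finset.erase_subset _ _), hc, he⟩

/-- **Non-special points**: `g` distinct places with `L(Q₁ + ... + Q_g) = K`, avoiding nothing. -/
theorem exists_nonspecial (hx : IsSepParam K x) :
    ∃ S : Finset (Place K F), (S.card : ℤ) = gR K F ∧ ell (redDiv S) = 1 := by
  obtain ⟨c, hc⟩ := hx.exists_riemann
  haveI := hx.infinite_place84
  obtain ⟨S, hS⟩ := Infinite.exists_subset_card_eq (Place K F) c.toNat
  have hdeg : c ≤ Divisor.degree (redDiv S) := by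
    rw [hx.degree_redDiv, hS]; exact Int.self_le_toNat c
  have := hc _ hdeg
  rw [hx.degree_redDiv] at this
  obtain ⟨S', -, h1, h2⟩ := hx.exists_nonspecial_subset _ S rfl this
  exact ⟨S', h1, h2⟩

/-- if `ℓ(D) = 1` and `D ≥ 0` then `L(D)` consists of constants. -/
theorem mem_range_of_ell_eq_one84 (hx : IsSepParam K x) {D : Divisor K F} (hD : 0 ≤ D)
    (h1 : ell D = 1) {f : F} (hf : f ∈ riemannRochSpace D) : f ∈ Set.range (algebraMap K F) := by
  haveI := hx.finite_L D
  have heq : riemannRochSpace (0 : Divisor K F) = riemannRochSpace D := by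
    refine Submodule.eq_of_le_of_finrank_eq (L_mono hD) ?_
    have := hx.ell_zero
    unfold ell at this h1
    rw [this, h1]
  rw [← heq, hx.L_zero, Submodule.mem_one] at hf
  exact hf

/-- A function with a simple zero at `Q` and poles only at `Q∞`. -/
theorem exists_localParam (hx : IsSepParam K x) {Q Qi : Place K F} (hne : Q ≠ Qi) :
    ∃ n₀ : ℤ, ∀ n : ℤ, n₀ ≤ n → ∃ τ : F, τ ∈ riemannRochSpace (Finsupp.single Qi n) ∧
      Q.ord τ = 1 := by
  classical
  obtain ⟨c, hc⟩ := hx.exists_riemann
  refine ⟨c + 2, fun n hn => ?_⟩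
  set D1 : Divisor K F := Finsupp.single Qi n - Finsupp.single Q 1 with hD1
  set D2 : Divisor K F := Finsupp.single Qi n - Finsupp.single Q 2 with hD2
  have hd1 : Divisor.degree D1 = n - 1 := by
    rw [hD1, map_sub, hx.degree_single, hx.degree_single]
  have hd2 : Divisor.degree D2 = n - 2 := by
    rw [hD2, map_sub, hx.degree_single, hx.degree_single]
  have h1 := hc D1 (by rw [hd1]; omega)
  have h2 := hc D2 (by rw [hd2]; omega)
  have hle : D2 ≤ D1 := fun P => by
    rw [hD1, hD2, Finsupp.sub_apply, Finsupp.sub_apply, Finsupp.single_apply (a := Q),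
      Finsupp.single_apply (a := Q)]
    split_ifs <;> omega
  haveI := hx.finite_L D1
  have hlt : riemannRochSpace D2 < riemannRochSpace D1 := by
    refine lt_of_le_of_ne (L_mono hle) fun heq => ?_
    have : ell D2 = ell D1 := by unfold ell; rw [heq]
    rw [this, hd2] at h2
    rw [hd1] at h1
    omega
  obtain ⟨τ, hτ1, hτ2⟩ := SetLike.exists_of_lt hlt
  have hτ0 : τ ≠ 0 := fun h => hτ2 (h ▸ zero_mem _)
  rw [mem_L_iff_of_ne_zero hτ0] at hτ1 hτ2
  push Not at hτ2
  obtain ⟨P, hP⟩ := hτ2
  have hPQ : P = Q := by
    by_contra hPQ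
    have := hτ1 P
    rw [hD1, Finsupp.sub_apply, Finsupp.single_apply (a := Q), if_neg (Ne.symm hPQ)] at this
    rw [hD2, Finsupp.sub_apply, Finsupp.single_apply (a := Q), if_neg (Ne.symm hPQ)] at hP
    omega
  subst hPQ
  refine ⟨τ, ?_, ?_⟩
  · rw [mem_L_iff_of_ne_zero hτ0]
    intro P'
    have := hτ1 P'
    rw [hD1, Finsupp.sub_apply, Finsupp.single_apply (a := P)] at this
    split_ifs at this <;> omega
  · have := hτ1 P
    rw [hD1, Finsupp.sub_apply, Finsupp.single_eq_same, Finsupp.single_apply,
      if_neg (Ne.symm hne)] at this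
    rw [hD2, Finsupp.sub_apply, Finsupp.single_eq_same, Finsupp.single_apply,
      if_neg (Ne.symm hne)] at hP
    omega

end IsSepParam

end

end Fermat.Agent.RED
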