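import Fermat.Agent.RED.TorsionInj
import Fermat.Agent.RED.Deuring.Main
import Fermat.Agent.RED.S18.NonSpecial

/-!
# RED/S18: the abstract Kummer statement (K)

Assembly of Deuring's reduction of places, non-special points and the torsion injectivity theorem:
a Gauss unit whose divisor is divisible by `m` (prime to the residue characteristic) and whose
reduction is an `m`-th power is an `m`-th power.
-/

set_option autoImplicit false

open AlgebraicCurve IntermediateField
open Fermat.Agent.S24

namespace Fermat.Agent.RED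

noncomputable section

variable {K F k Fb : Type*} [Field K] [Field F] [Algebra K F] [Field k] [Field Fb] [Algebra k Fb]

theorem LS_eq_L (D : Divisor K F) : LS D = riemannRochSpace D := by
  ext f
  rw [mem_LS, mem_L_iff]
  refine or_congr Iff.rfl (forall_congr' fun v => ?_)
  constructor <;> intro h <;> linarith

namespace RedData

variable (R : RedData K F k Fb)

theorem valuation_eq_one_iff (x : R.O) : R.O.valuation (x : F) = 1 ↔ R.red x ≠ 0 := by
  rw [R.red_ne_zero_iff, ValuationSubring.valuation_eq_one_iff]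

theorem red_eq_zero_iff (x : R.O) : R.red x = 0 ↔ R.O.valuation (x : F) < 1 := by
  have h1 := R.valuation_eq_one_iff x
  have h2 : R.O.valuation (x : F) ≤ 1 := R.O.valuation_le_one x
  constructor
  · intro h
    refine lt_of_le_of_ne h2 fun h3 => (h1.mp h3) h
  · intro h
    by_contra h3
    exact h.ne (h1.mpr h3)

/-- The structure used by the torsion injectivity theorem. -/
theorem isReduction [IsAlgClosed K] {x₀ : F} (hx : IsSepParam K x₀) (r : Place K F → Place k Fb)
    (hP1 : ∀ (x : R.O), R.red x ≠ 0 → ∀ D : Divisor K F, (∀ v : Place K F, D v = v.ord (x : F)) →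
        ∀ Q : Place k Fb, (D.mapDomain r) Q = Q.ord (R.red x)) :
    IsReduction R.O R.red r where
  ker := R.red_eq_zero_iff
  const := fun c h => by
    obtain ⟨a, ha⟩ := R.red_const c h
    exact ⟨a, ha.symm⟩
  scale := fun f hf => by
    obtain ⟨c, h, hc⟩ := R.exists_scale f hf
    have h1 := (R.valuation_eq_one_iff ⟨_, h⟩).mpr hc
    have h2 : R.O.valuation (algebraMap K F c) * R.O.valuation f = 1 := by
      rw [← map_mul]; exact h1
    refine ⟨c⁻¹, ?_⟩
    rw [map_inv₀, map_inv₀]
    exact eq_inv_of_mul_eq_one_right h2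
  div_red := fun x hx1 D hD Q => hP1 x ((R.valuation_eq_one_iff x).mp hx1) D hD Q
  exists_div := fun f _ => ⟨dv K f, fun P => hx.dv_apply f P⟩
  exists_value := fun P f hf => hx.exists_value P hf

end RedData

section Main

variable [IsAlgClosed K] [IsAlgClosed k] {x₀ : F} {y₀ : Fb} {R : RedData K F k Fb} {g c : ℤ}

theorem DeuringHyp.finrank_redSub (H : DeuringHyp R g c) (V : Submodule K F)
    [FiniteDimensional K V] : Module.finrank k (R.redSub V) = Module.finrank K V :=
  le_antisymm (R.finrank_redSub_le V).2 (H.on V inferInstance)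

/-- Equality of the Riemann genera. -/
theorem gR_bot_eq (hx : IsSepParam K x₀) (hy : IsSepParam k y₀) (H : DeuringHyp R g c)
    (r : Place K F → Place k Fb)
    (hL : ∀ D : Divisor K F, c + g ≤ Divisor.degree D → R.redSub (LS D) = LS (D.mapDomain r)) :
    gR k Fb = gR K F := by
  obtain ⟨c1, h1⟩ := hx.exists_riemann
  obtain ⟨c2, h2⟩ := hy.exists_riemann
  obtain ⟨P₀⟩ := H.nonempty_top
  set n : ℤ := max (c + g) (max c1 c2) with hn
  have hn0 : c + g ≤ n := le_max_left _ _
  have hn1 : c1 ≤ n := (le_max_left _ _).trans (le_max_right _ _)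
  have hn2 : c2 ≤ n := (le_max_right _ _).trans (le_max_right _ _)
  have e1 := h1 (Finsupp.single P₀ n) (by rw [hx.degree_single]; exact hn1)
  have e2 := h2 (Finsupp.single (r P₀) n) (by rw [hy.degree_single]; exact hn2)
  have e3 := hL (Finsupp.single P₀ n) (by rw [hx.degree_single]; exact hn0)
  rw [Finsupp.mapDomain_single] at e3
  haveI : FiniteDimensional K (LS (Finsupp.single P₀ n : Divisor K F)) := H.finite_top _
  have e4 := H.finrank_redSub (LS (Finsupp.single P₀ n : Divisor K F))
  rw [e3, LS_eq_L, LS_eq_L] at e4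
  rw [hx.degree_single] at e1
  rw [hy.degree_single] at e2
  unfold ell at e1 e2
  rw [e4] at e2
  linarith

/-- **(K), abstract form.** -/
theorem exists_pow_eq_of_red_pow (hx : IsSepParam K x₀) (hy : IsSepParam k y₀)
    (H : DeuringHyp R (gR K F) c) {m : ℕ} (hm : (m : Fb) ≠ 0) (x : R.O) (γ : Fb) (hγ : γ ≠ 0)
    (hxγ : R.red x = γ ^ m) (hdiv : ∀ P : Place K F, (m : ℤ) ∣ P.ord (x : F)) :
    ∃ h : F, h ^ m = (x : F) := by
  classical
  obtain ⟨r, hsurj, hP1, hL⟩ := H.exists_placeMap
  have hred := R.isReduction hx r hP1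
  have hgen := gR_bot_eq hx hy H r hL
  have hm0 : m ≠ 0 := by rintro rfl; simp at hm
  -- the non-special points
  obtain ⟨S, hScard, hSell⟩ := hy.exists_nonspecial
  rw [hgen] at hScard
  obtain ⟨gn, hgn⟩ := Int.eq_ofNat_of_zero_le hx.gR_nonneg
  have hScard' : S.card = gn := by
    have : (S.card : ℤ) = (gn : ℤ) := by rw [hScard, hgn]
    exact_mod_cast this
  haveI := hy.infinite_place84
  obtain ⟨Q0, hQ0⟩ := Infinite.exists_notMem_finset S
  obtain ⟨P0, hP0⟩ := hsurj Q0
  let e : Fin gn ≃ S := (Finset.equivFinOfCardEq hScard').symm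
  choose pre hpre using hsurj
  let Pt : Fin gn → Place K F := fun i => pre (e i : Place k Fb)
  have hrPt : ∀ i, r (Pt i) = (e i : Place k Fb) := fun i => hpre _
  have hcomp : r ∘ Pt = fun i => (e i : Place k Fb) := funext hrPt
  have hinj : Function.Injective (r ∘ Pt) := by
    rw [hcomp]
    exact Subtype.val_injective.comp e.injective
  have hrange : ∀ Q : Place k Fb, Q ∈ Set.range (r ∘ Pt) ↔ Q ∈ S := by
    intro Q
    rw [hcomp]
    constructor
    · rintro ⟨i, rfl⟩
      exact (e i).2
    · intro hQ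
      exact ⟨e.symm ⟨Q, hQ⟩, by simp⟩
  -- local parameters
  have hT : ∀ i, ∃ T : F, IsLocalParam R.O R.red r (r (Pt i)) T := by
    intro i
    have hne : r (Pt i) ≠ Q0 := by
      rw [hrPt]
      intro h
      exact hQ0 (h ▸ (e i).2)
    obtain ⟨n₀, hn₀⟩ := hy.exists_localParam hne
    set n : ℤ := max n₀ (c + gR K F) with hn
    obtain ⟨τ, hτ, hτ1⟩ := hn₀ n (le_max_left _ _)
    have e3 := hL (Finsupp.single P0 n) (by rw [hx.degree_single]; exact le_max_right _ _)
    rw [Finsupp.mapDomain_single, hP0] at e3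
    rw [← LS_eq_L, ← e3] at hτ
    obtain ⟨T, hTL, hTτ⟩ := hτ
    have hτ0 : τ ≠ 0 := by
      intro h0
      rw [h0, Place.ord_zero] at hτ1
      omega
    have hT0 : (T : F) ≠ 0 := by
      intro h0
      apply hτ0
      have : T = 0 := Subtype.ext h0
      rw [← hTτ, this, map_zero]
    refine ⟨(T : F), T.2, fun P hP => ?_, ?_⟩
    · have h1 := (mem_LS_of_ne_zero hT0).mp hTL P
      have hPne : P0 ≠ P := by
        rintro rfl
        exact hne (hP.symm.trans hP0)
      rw [Finsupp.single_apply, if_neg hPne] at h1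
      simpa using h1
    · rw [rd_of_mem T.2]
      show (r (Pt i)).ord (R.red T) = 1
      rw [hTτ, hτ1]
  choose T hT using hT
  -- the divisor
  set Dx : Divisor K F := dv K (x : F) with hDx
  have hx0 : (x : F) ≠ 0 := by
    intro h0
    have : x = 0 := Subtype.ext h0
    rw [this, map_zero] at hxγ
    exact pow_ne_zero m hγ hxγ.symm
  set D : Divisor K F := Dx.mapRange (fun a => a / (m : ℤ)) (by simp) with hD
  have hmD : m • D = Dx := by
    ext P
    rw [Finsupp.smul_apply, hD, Finsupp.mapRange_apply, hDx, hx.dv_apply, nsmul_eq_mul]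
    exact Int.mul_ediv_cancel' (hdiv P)
  have hD0 : Divisor.degree D = 0 := by
    have h1 : Divisor.degree (m • D) = 0 := by rw [hmD, hDx, hx.degree_dv]
    rw [map_nsmul, nsmul_eq_mul] at h1
    rcases mul_eq_zero.mp h1 with h2 | h2
    · exact absurd (by exact_mod_cast h2) hm0
    · exact h2
  have hredx : R.red x ≠ 0 := by rw [hxγ]; exact pow_ne_zero m hγ
  have hrD : D.mapDomain r = dv k γ := by
    have h1 : m • D.mapDomain r = m • dv k γ := by
      rw [← Finsupp.mapDomain_smul, hmD, ← hy.dv_pow]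
      ext Q
      rw [hP1 x hredx Dx (fun v => hx.dv_apply _ v) Q, hy.dv_apply, hxγ]
    ext Q
    have h2 := DFunLike.congr_fun h1 Q
    rw [Finsupp.smul_apply, Finsupp.smul_apply, nsmul_eq_mul, nsmul_eq_mul] at h2
    exact mul_left_cancel₀ (by exact_mod_cast hm0) h2
  have hmval : R.O.valuation ((m : ℕ) : F) = 1 := by
    have h1 := (R.valuation_eq_one_iff (m : R.O)).mpr (by rw [map_natCast]; exact hm)
    simpa using h1
  have hprin := isPrincipal_of_torsion hred (g := gn)
    (fun E hE => by
      obtain ⟨φ, hφ, hφ0⟩ := hx.exists_ne_zero_mem_L (A := E) (by rw [hE, hgn])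
      exact ⟨φ, hφ0, (mem_L_iff_of_ne_zero hφ0).mp hφ⟩)
    hx.deg_eq_one Pt hinj T hT
    (fun φ hφ => by
      refine hy.mem_range_of_ell_eq_one84 (D := redDiv S) (fun Q => ?_) hSell ?_
      · rw [redDiv_apply]; split_ifs <;> simp
      · rw [mem_L_iff]
        right
        intro Q
        have := hφ Q
        rw [redDiv_apply]
        by_cases hQ : Q ∈ S
        · rw [if_pos hQ]
          rw [if_pos ((hrange Q).mpr hQ)] at this
          omega
        · rw [if_neg hQ]
          rw [if_neg (fun h => hQ ((hrange Q).mp h))] at this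
          omega)
    P0 (by rw [hP0]; exact fun h => hQ0 ((hrange Q0).mp h))
    hmval D hD0 (by rw [hmD]; exact hx.isPrincipal_dv hx0)
    (by rw [hrD]; exact hy.isPrincipal_dv hγ)
  obtain ⟨h₀, hh₀, hDh⟩ := hprin
  -- `x / h₀ ^ m` is a constant
  have hconst : (x : F) / h₀ ^ m ∈ Set.range (algebraMap K F) := by
    apply hx.mem_range_of_forall_ord_nonneg
    intro P
    rw [ord_div P hx0 (pow_ne_zero m hh₀), Place.ord_pow, ← hDh P]
    have h2 := DFunLike.congr_fun hmD P
    rw [Finsupp.smul_apply, nsmul_eq_mul, hDx, hx.dv_apply] at h2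
    rw [← h2]
    simp
  obtain ⟨a, ha⟩ := hconst
  obtain ⟨b, hb⟩ := IsAlgClosed.exists_pow_nat_eq a (Nat.pos_of_ne_zero hm0)
  refine ⟨algebraMap K F b * h₀, ?_⟩
  rw [mul_pow, ← map_pow, hb, ha, div_mul_cancel₀ _ (pow_ne_zero m hh₀)]

end Main

end

end Fermat.Agent.RED
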