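import Fermat.Agent.RED.Gauss.ONDatum
import Fermat.Agent.RED.Gauss.Bridge
import Fermat.Agent.RED.FF.DeuringBridge
import Fermat.Agent.RED.S18.Kummer
import Fermat.Agent.RED.S18.KProp

/-!
# RED/S18: the Kummer property (K) of the Gauss datum at a level where `gR F ≤ gR Fb`
-/

set_option autoImplicit false
set_option linter.unusedSectionVars false
noncomputable section
open Polynomial ModularCurve IntermediateField AlgebraicCurve

namespace Fermat.Agent.RED

open Fermat.Agent.S28 Fermat.Agent.RED.Gauss Fermat.Agent.S24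

/-- The residue field of a valuation ring of an algebraically closed field is algebraically
closed. -/
theorem isAlgClosed_residueField {L : Type*} [Field L] [IsAlgClosed L] (A : ValuationSubring L) :
    IsAlgClosed (IsLocalRing.ResidueField A) := by
  apply IsAlgClosed.of_exists_root
  intro p hp _
  obtain ⟨q, hq, hqdeg, hqm⟩ := Polynomial.lifts_and_degree_eq_and_monic
    (f := IsLocalRing.residue A) (p := p)
    ((Polynomial.mem_lifts p).2 (Polynomial.map_surjective _ IsLocalRing.residue_surjective p)) hp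
  have hdeg : (q.map A.subtype).degree ≠ 0 := by
    rw [Polynomial.degree_map_eq_of_injective Subtype.val_injective, hqdeg]
    exact (Irreducible.degree_pos ‹_›).ne'
  obtain ⟨z, hz⟩ := IsAlgClosed.exists_root (q.map A.subtype) hdeg
  have hzint : IsIntegral A z := ⟨q, hqm, by
    rw [IsRoot.def, Polynomial.eval_map] at hz; exact hz⟩
  have hzA : z ∈ A := by
    obtain ⟨y, hy⟩ := (IsIntegrallyClosed.isIntegral_iff (R := A) (K := L)).mp hzint
    rw [← hy]; exact y.2
  refine ⟨IsLocalRing.residue A ⟨z, hzA⟩, ?_⟩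
  rw [← hq, Polynomial.eval_map, Polynomial.eval₂_hom]
  have : q.eval (⟨z, hzA⟩ : A) = 0 := by
    apply Subtype.val_injective
    rw [IsRoot.def, Polynomial.eval_map] at hz
    have h1 : A.subtype (q.eval (⟨z, hzA⟩ : A)) = q.eval₂ A.subtype z := by
      rw [← Polynomial.eval₂_hom]; rfl
    exact h1.trans hz
  rw [this, map_zero]

section Level

variable {L : Type*} [Field L] [Algebra ℚ L] {A : ValuationSubring L}
variable {k : Type*} [Field k] (π : A →+* k)
variable {N : ℕ} [NeZero N] {ℓ : ℕ} [Fact ℓ.Prime] {n : ℕ} {u : LaurentSeries ℤ}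
variable [CharP k ℓ] (hπ : Function.Surjective π) (hn : 0 < n) (h : IsCoreExt N ℓ n u)

/-- **(K) at a level with `gR F ≤ gR Fb`.** -/
theorem kProp_gaussRedData [IsAlgClosed L] [IsAlgClosed k]
    {x₀ : laurentBaseChange L (modularFunctionFieldFull N)} (hx : IsSepParam L x₀)
    {y₀ : modularFunctionFieldFullC k N} (hy : IsSepParam k y₀)
    (hg : gR L (laurentBaseChange L (modularFunctionFieldFull N)) ≤
      gR k (modularFunctionFieldFullC k N))
    {m : ℕ} (hm : ¬ ℓ ∣ m) : KProp (gaussRedData π hπ hn h) m := by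
  obtain ⟨c, H⟩ := exists_deuringHyp (gaussRedData π hπ hn h) hx hy hg (gaussRedData_on π hπ hn h)
  intro x γ hγ hxγ hdiv
  refine exists_pow_eq_of_red_pow hx hy H ?_ x γ hγ hxγ hdiv
  have h1 : (m : k) ≠ 0 := fun h0 => hm ((CharP.cast_eq_zero_iff k ℓ m).mp h0)
  intro h0
  apply h1
  have h2 : algebraMap k (modularFunctionFieldFullC k N) (m : k) = 0 := by
    rw [map_natCast]; exact h0
  exact (map_eq_zero _).mp h2

end Level

end Fermat.Agent.RED
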